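import Fermat.Agent.LevelOne.Lattice

/-!
# Lattice Eisenstein sums versus Eisenstein series

For `τ ∈ ℍ` and `c ≠ 0` the period pair `(cτ, c)` has `G_k = c^{-k} · 2ζ(k) · E_k(τ)`.
-/

set_option autoImplicit false

open UpperHalfPlane ModularForm EisensteinSeries Filter Topology
open scoped MatrixGroups

namespace Fermat.Agent.LevelOne.EisLattice

/-- The period pair `(cτ, c)`. -/
noncomputable def pairOf (c : ℂ) (hc : c ≠ 0) (τ : ℍ) : PeriodPair where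
  ω₁ := c * τ
  ω₂ := c
  indep := by
    rw [LinearIndependent.pair_iff]
    intro s t h
    have h1 : c * ((s : ℂ) * τ + t) = 0 := by
      simp only [Complex.real_smul] at h
      linear_combination h
    have h2 : (s : ℂ) * τ + t = 0 := (mul_eq_zero.1 h1).resolve_left hc
    have h3 := congrArg Complex.im h2
    simp only [Complex.add_im, Complex.mul_im, Complex.ofReal_re, Complex.ofReal_im, zero_mul,
      add_zero, Complex.zero_im, UpperHalfPlane.coe_im] at h3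
    have hs : s = 0 := (mul_eq_zero.1 h3).resolve_right τ.im_pos.ne'
    subst hs
    simp only [Complex.ofReal_zero, zero_mul, zero_add, Complex.ofReal_eq_zero] at h2
    exact ⟨rfl, h2⟩

@[simp] theorem pairOf_ω₁ (c : ℂ) (hc : c ≠ 0) (τ : ℍ) : (pairOf c hc τ).ω₁ = c * τ := rfl
@[simp] theorem pairOf_ω₂ (c : ℂ) (hc : c ≠ 0) (τ : ℍ) : (pairOf c hc τ).ω₂ = c := rfl

theorem G_eq_tsum_prod (L : PeriodPair) (n : ℕ) :
    L.G n = ∑' x : ℤ × ℤ, (((x.1 : ℂ) * L.ω₁ + x.2 * L.ω₂) ^ n)⁻¹ := by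
  rw [PeriodPair.G, ← L.latticeEquivProd.symm.toEquiv.tsum_eq]
  refine tsum_congr fun x ↦ ?_
  simp only [LinearEquiv.coe_toEquiv]
  rw [L.latticeEquiv_symm_apply]

theorem G_pairOf (c : ℂ) (hc : c ≠ 0) (τ : ℍ) {k : ℕ} (hk : 3 ≤ k) :
    (pairOf c hc τ).G k = (c ^ k)⁻¹ * (2 * riemannZeta k * E hk τ) := by
  have h1 := tsum_eisSummand_eq_riemannZeta_mul_eisensteinSeries hk τ
  have h2 : E hk τ = (1 / 2 : ℂ) * eisensteinSeries (N := 1) 0 k τ := by
    show ((1 / 2 : ℂ) • eisensteinSeriesSIF (N := 1) 0 k) τ = _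
    rfl
  rw [G_eq_tsum_prod, h2]
  have h3 : 2 * riemannZeta k * ((1 / 2 : ℂ) * eisensteinSeries (N := 1) 0 k τ) =
      riemannZeta k * eisensteinSeries (N := 1) 0 k τ := by ring
  rw [h3, ← h1, ← (finTwoArrowEquiv ℤ).symm.tsum_eq, ← tsum_mul_left]
  refine tsum_congr fun x ↦ ?_
  simp only [pairOf_ω₁, pairOf_ω₂, finTwoArrowEquiv_symm_apply, eisSummand, Fin.isValue,
    Matrix.cons_val_zero, Matrix.cons_val_one, zpow_neg, zpow_natCast]
  rw [← mul_inv, ← mul_pow]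
  congr 2
  ring

theorem riemannZeta_ne_zero_nat {k : ℕ} (hk : 3 ≤ k) : riemannZeta k ≠ 0 :=
  riemannZeta_ne_zero_of_one_lt_re (by
    simp only [Complex.natCast_re]
    exact_mod_cast (by omega : 1 < k))

theorem g₂_pairOf (c : ℂ) (hc : c ≠ 0) (τ : ℍ) :
    (pairOf c hc τ).g₂ = 60 * ((c ^ 4)⁻¹ * (2 * riemannZeta 4 * E₄ τ)) := by
  rw [PeriodPair.g₂, G_pairOf c hc τ (by norm_num : 3 ≤ 4)]
  norm_cast

theorem g₃_pairOf (c : ℂ) (hc : c ≠ 0) (τ : ℍ) :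
    (pairOf c hc τ).g₃ = 140 * ((c ^ 6)⁻¹ * (2 * riemannZeta 6 * E₆ τ)) := by
  rw [PeriodPair.g₃, G_pairOf c hc τ (by norm_num : 3 ≤ 6)]
  norm_cast

end Fermat.Agent.LevelOne.EisLattice
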