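import Fermat.Agent.LevelOne.Ramanujan

/-!
# The `j`-function: basic facts

`jFun τ = E₄(τ)³/Δ(τ)` (classical normalisation, `jFun = 1/q + 744 + ...`), `jFun - 1728 = E₆²/Δ`,
`SL(2,ℤ)`-invariance, holomorphy, `D jFun = -E₄² E₆/Δ`, the order of `jFun - jFun τ₀` at `τ₀`
(3 at zeros of `E₄`, 2 at zeros of `E₆`, 1 otherwise), surjectivity, and the special values
`E₆(i) = 0`, `E₄(ρ) = 0`.
-/

set_option autoImplicit false

open UpperHalfPlane ModularForm SlashInvariantForm SlashInvariantFormClass ModularFormClass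
  CuspFormClass MatrixGroups OnePoint Filter EisensteinSeries Asymptotics Derivative
open scoped Topology Manifold

namespace Fermat.Agent.LevelOne.JBasic

open Fermat.Agent.LevelOne.Ramanujan

local notation "Δ" => ModularForm.discriminant

/-! ### Holomorphic functions on `ℍ` as functions on `ℂ` -/

theorem analyticAt_comp_ofComplex {F : ℍ → ℂ} (hF : MDiff F) (τ : ℍ) :
    AnalyticAt ℂ (F ∘ ofComplex) (τ : ℂ) :=
  (UpperHalfPlane.mdifferentiable_iff.1 hF).analyticAt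
    (isOpen_upperHalfPlaneSet.mem_nhds τ.im_pos)

theorem deriv_comp_ofComplex (F : ℍ → ℂ) (τ : ℍ) :
    deriv (F ∘ ofComplex) (τ : ℂ) = 2 * Real.pi * Complex.I * D F τ := by
  have h : (2 * (Real.pi : ℂ) * Complex.I) ≠ 0 := by
    simp [Real.pi_ne_zero]
  rw [normalizedDerivOfComplex, ← mul_assoc, mul_inv_cancel₀ h, one_mul]

theorem comp_ofComplex_apply (F : ℍ → ℂ) (τ : ℍ) : (F ∘ ofComplex) (τ : ℂ) = F τ := by
  simp [ofComplex_apply]

/-! ### `E₄`, `E₆` have no common zero -/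

theorem discriminant_eq (z : ℍ) : Δ z = (E₄ z ^ 3 - E₆ z ^ 2) / 1728 :=
  discriminant_eq_E₄_cube_sub_E₆_sq z

theorem E₄_cube_sub_E₆_sq_ne_zero (z : ℍ) : E₄ z ^ 3 - E₆ z ^ 2 ≠ 0 := by
  intro h
  apply discriminant_ne_zero z
  rw [discriminant_eq, h, zero_div]

theorem E₆_ne_zero_of_E₄_eq_zero {z : ℍ} (h : E₄ z = 0) : E₆ z ≠ 0 := by
  intro h6
  apply E₄_cube_sub_E₆_sq_ne_zero z
  rw [h, h6]
  ring

theorem E₄_ne_zero_of_E₆_eq_zero {z : ℍ} (h : E₆ z = 0) : E₄ z ≠ 0 := by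
  intro h4
  apply E₄_cube_sub_E₆_sq_ne_zero z
  rw [h, h4]
  ring

/-! ### The `j`-function -/

/-- The classical `j`-invariant `j = E₄³/Δ = 1728 E₄³/(E₄³ - E₆²)`. -/
noncomputable def jFun (τ : ℍ) : ℂ := E₄ τ ^ 3 / Δ τ

theorem jFun_def (τ : ℍ) : jFun τ = E₄ τ ^ 3 / Δ τ := rfl

theorem jFun_sub_1728 (τ : ℍ) : jFun τ - 1728 = E₆ τ ^ 2 / Δ τ := by
  have h := discriminant_ne_zero τ
  rw [jFun, div_sub' h, discriminant_eq]
  congr 1
  ring

theorem jFun_eq_zero_iff (τ : ℍ) : jFun τ = 0 ↔ E₄ τ = 0 := by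
  rw [jFun, div_eq_zero_iff]
  simp [discriminant_ne_zero τ]

theorem jFun_eq_1728_iff (τ : ℍ) : jFun τ = 1728 ↔ E₆ τ = 0 := by
  rw [← sub_eq_zero, jFun_sub_1728, div_eq_zero_iff]
  simp [discriminant_ne_zero τ]

theorem mdifferentiable_jFun : MDiff jFun := by
  have h1 : MDiff (fun τ ↦ E₄ τ ^ 3) := (ModularFormClass.holo E₄).pow 3
  exact h1.div CuspForm.discriminant.holo' discriminant_ne_zero

theorem jFun_smul (γ : SL(2, ℤ)) (τ : ℍ) : jFun (γ • τ) = jFun τ := by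
  have hγ : (γ : GL (Fin 2) ℝ) ∈ 𝒮ℒ := ⟨γ, rfl⟩
  have h4 := SlashInvariantForm.slash_action_eqn'' E₄ hγ τ
  have h12 := SlashInvariantForm.slash_action_eqn'' CuspForm.discriminant hγ τ
  have hd : denom (γ : GL (Fin 2) ℝ) τ ≠ 0 := denom_ne_zero _ _
  have hΔ := discriminant_ne_zero τ
  simp only [jFun]
  rw [show γ • τ = (γ : GL (Fin 2) ℝ) • τ from rfl, h4]
  have h12' : Δ ((γ : GL (Fin 2) ℝ) • τ) = denom (γ : GL (Fin 2) ℝ) τ ^ (12 : ℤ) * Δ τ := h12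
  rw [h12']
  have e1 : (denom (γ : GL (Fin 2) ℝ) τ ^ (4 : ℤ) * E₄ τ) ^ 3 =
      denom (γ : GL (Fin 2) ℝ) τ ^ (12 : ℤ) * E₄ τ ^ 3 := by
    rw [mul_pow, ← zpow_natCast, ← zpow_mul]
    norm_num
  rw [e1, mul_div_mul_left _ _ (zpow_ne_zero _ hd)]

/-! ### The derivative of `j` -/

theorem differentiableAt_comp_ofComplex {F : ℍ → ℂ} (hF : MDiff F) (τ : ℍ) :
    DifferentiableAt ℂ (F ∘ ofComplex) (τ : ℂ) :=
  (analyticAt_comp_ofComplex hF τ).differentiableAt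

theorem D_div {F G : ℍ → ℂ} (hF : MDiff F) (hG : MDiff G) (τ : ℍ) (h : G τ ≠ 0) :
    D (fun z ↦ F z / G z) τ = (D F τ * G τ - F τ * D G τ) / G τ ^ 2 := by
  have hF' := differentiableAt_comp_ofComplex hF τ
  have hG' := differentiableAt_comp_ofComplex hG τ
  have hne : (G ∘ ofComplex) (τ : ℂ) ≠ 0 := by rwa [comp_ofComplex_apply]
  have h1 : deriv ((F ∘ ofComplex) / (G ∘ ofComplex)) (τ : ℂ) = _ := deriv_div hF' hG' hne
  rw [comp_ofComplex_apply, comp_ofComplex_apply] at h1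
  have h2 : ((fun z ↦ F z / G z) ∘ ofComplex) = (F ∘ ofComplex) / (G ∘ ofComplex) := rfl
  simp only [normalizedDerivOfComplex] at *
  rw [h2, h1]
  ring

theorem D_jFun (τ : ℍ) : D jFun τ = -(E₄ τ ^ 2 * E₆ τ) / Δ τ := by
  have hΔ := discriminant_ne_zero τ
  have h1 : MDiff (fun τ ↦ E₄ τ ^ 3) := (ModularFormClass.holo E₄).pow 3
  have h2 : MDiff Δ := CuspForm.discriminant.holo'
  have h3 : D (fun τ ↦ E₄ τ ^ 3) τ = 3 * E₄ τ ^ 2 * D E₄ τ := by
    have := congrFun (normalizedDerivOfComplex_pow E₄ 3 (ModularFormClass.holo E₄)) τ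
    have e : (⇑E₄ ^ 3 : ℍ → ℂ) = fun τ ↦ E₄ τ ^ 3 := rfl
    rw [e] at this
    simpa [mul_comm, mul_assoc, mul_left_comm] using this
  show D (fun z ↦ E₄ z ^ 3 / Δ z) τ = _
  rw [D_div h1 h2 τ hΔ, h3, D_E₄, D_Δ]
  field_simp
  ring

/-! ### Orders of vanishing -/

/-- The function `w ↦ jFun w - c` on `ℂ` (junk outside the upper half plane). -/
noncomputable def jSub (c : ℂ) : ℂ → ℂ := fun w ↦ (jFun ∘ ofComplex) w - c

theorem analyticAt_jSub (c : ℂ) (τ : ℍ) : AnalyticAt ℂ (jSub c) (τ : ℂ) :=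
  (analyticAt_comp_ofComplex mdifferentiable_jFun τ).sub analyticAt_const

theorem analyticOrderAt_of_D_ne_zero {F : ℍ → ℂ} (hF : MDiff F) (τ : ℍ) (h0 : F τ = 0)
    (h : D F τ ≠ 0) : analyticOrderAt (F ∘ ofComplex) (τ : ℂ) = 1 := by
  apply (analyticAt_comp_ofComplex hF τ).analyticOrderAt_eq_one_of_zero_deriv_ne_zero
  · rwa [comp_ofComplex_apply]
  · rw [deriv_comp_ofComplex]
    have h2 : (2 * (Real.pi : ℂ) * Complex.I) ≠ 0 := by simp [Real.pi_ne_zero]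
    exact mul_ne_zero h2 h

/-- Zeros of `E₄` are simple. -/
theorem analyticOrderAt_E₄ {τ : ℍ} (h : E₄ τ = 0) :
    analyticOrderAt (E₄ ∘ ofComplex) (τ : ℂ) = 1 := by
  apply analyticOrderAt_of_D_ne_zero (ModularFormClass.holo E₄) τ h
  rw [D_E₄, h, mul_zero, zero_sub]
  exact div_ne_zero (neg_ne_zero.2 (E₆_ne_zero_of_E₄_eq_zero h)) (by norm_num)

/-- Zeros of `E₆` are simple. -/
theorem analyticOrderAt_E₆ {τ : ℍ} (h : E₆ τ = 0) :
    analyticOrderAt (E₆ ∘ ofComplex) (τ : ℂ) = 1 := by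
  apply analyticOrderAt_of_D_ne_zero (ModularFormClass.holo E₆) τ h
  rw [D_E₆, h, mul_zero, zero_sub]
  exact div_ne_zero (neg_ne_zero.2 (pow_ne_zero 2 (E₄_ne_zero_of_E₆_eq_zero h))) (by norm_num)

theorem analyticOrderAt_inv_Δ (τ : ℍ) :
    analyticOrderAt (Δ ∘ ofComplex)⁻¹ (τ : ℂ) = 0 := by
  have h1 : AnalyticAt ℂ (Δ ∘ ofComplex) (τ : ℂ) :=
    analyticAt_comp_ofComplex CuspForm.discriminant.holo' τ
  have hne : (Δ ∘ ofComplex) (τ : ℂ) ≠ 0 := by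
    rw [comp_ofComplex_apply]; exact discriminant_ne_zero τ
  rw [(h1.inv hne).analyticOrderAt_eq_zero]
  exact inv_ne_zero hne

/-- At a zero of `E₄`, `j` vanishes to order exactly `3`. -/
theorem analyticOrderAt_jSub_of_E₄_eq_zero {τ : ℍ} (h : E₄ τ = 0) :
    analyticOrderAt (jSub 0) (τ : ℂ) = 3 := by
  have h1 : AnalyticAt ℂ (Δ ∘ ofComplex) (τ : ℂ) :=
    analyticAt_comp_ofComplex CuspForm.discriminant.holo' τ
  have hne : (Δ ∘ ofComplex) (τ : ℂ) ≠ 0 := by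
    rw [comp_ofComplex_apply]; exact discriminant_ne_zero τ
  have h4 : AnalyticAt ℂ (E₄ ∘ ofComplex) (τ : ℂ) :=
    analyticAt_comp_ofComplex (ModularFormClass.holo E₄) τ
  have e : jSub 0 = (E₄ ∘ ofComplex) ^ 3 * (Δ ∘ ofComplex)⁻¹ := by
    funext w
    simp [jSub, jFun, div_eq_mul_inv]
  rw [e, analyticOrderAt_mul (h4.pow 3) (h1.inv hne), analyticOrderAt_pow h4,
    analyticOrderAt_E₄ h, analyticOrderAt_inv_Δ]
  rfl

/-- At a zero of `E₆`, `j - 1728` vanishes to order exactly `2`. -/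
theorem analyticOrderAt_jSub_of_E₆_eq_zero {τ : ℍ} (h : E₆ τ = 0) :
    analyticOrderAt (jSub 1728) (τ : ℂ) = 2 := by
  have h1 : AnalyticAt ℂ (Δ ∘ ofComplex) (τ : ℂ) :=
    analyticAt_comp_ofComplex CuspForm.discriminant.holo' τ
  have hne : (Δ ∘ ofComplex) (τ : ℂ) ≠ 0 := by
    rw [comp_ofComplex_apply]; exact discriminant_ne_zero τ
  have h6 : AnalyticAt ℂ (E₆ ∘ ofComplex) (τ : ℂ) :=
    analyticAt_comp_ofComplex (ModularFormClass.holo E₆) τ
  have e : jSub 1728 = (E₆ ∘ ofComplex) ^ 2 * (Δ ∘ ofComplex)⁻¹ := by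
    funext w
    simp only [jSub, Function.comp_apply, jFun_sub_1728, Pi.mul_apply, Pi.pow_apply,
      Pi.inv_apply, div_eq_mul_inv]
  rw [e, analyticOrderAt_mul (h6.pow 2) (h1.inv hne), analyticOrderAt_pow h6,
    analyticOrderAt_E₆ h, analyticOrderAt_inv_Δ]
  rfl

/-- Away from the zeros of `E₄` and `E₆`, `j - j(τ)` has a simple zero at `τ`. -/
theorem analyticOrderAt_jSub_of_ne_zero {τ : ℍ} (h4 : E₄ τ ≠ 0) (h6 : E₆ τ ≠ 0) :
    analyticOrderAt (jSub (jFun τ)) (τ : ℂ) = 1 := by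
  have h := (analyticAt_comp_ofComplex mdifferentiable_jFun τ).analyticOrderAt_sub_eq_one_of_deriv_ne_zero
    (by
      rw [deriv_comp_ofComplex, D_jFun]
      have h2 : (2 * (Real.pi : ℂ) * Complex.I) ≠ 0 := by simp [Real.pi_ne_zero]
      exact mul_ne_zero h2 (div_ne_zero (neg_ne_zero.2 (mul_ne_zero (pow_ne_zero 2 h4) h6))
        (discriminant_ne_zero τ)))
  rw [comp_ofComplex_apply] at h
  exact h

/-- The order of `j - j(τ)` at `τ`: `3` if `j(τ) = 0`, `2` if `j(τ) = 1728`, `1` otherwise. -/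
theorem analyticOrderAt_jSub (τ : ℍ) :
    analyticOrderAt (jSub (jFun τ)) (τ : ℂ) =
      if jFun τ = 0 then 3 else if jFun τ = 1728 then 2 else 1 := by
  by_cases h0 : jFun τ = 0
  · rw [if_pos h0, h0]
    exact analyticOrderAt_jSub_of_E₄_eq_zero ((jFun_eq_zero_iff τ).1 h0)
  · rw [if_neg h0]
    by_cases h1 : jFun τ = 1728
    · rw [if_pos h1, h1]
      exact analyticOrderAt_jSub_of_E₆_eq_zero ((jFun_eq_1728_iff τ).1 h1)
    · rw [if_neg h1]
      exact analyticOrderAt_jSub_of_ne_zero (fun h ↦ h0 ((jFun_eq_zero_iff τ).2 h))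
        (fun h ↦ h1 ((jFun_eq_1728_iff τ).2 h))

/-! ### Surjectivity of `j` -/

/-- `E₄³` as a modular form of weight 12. -/
noncomputable def E₄cube : ModularForm 𝒮ℒ 12 := ModularForm.mcast (by norm_num) (E₄sq.mul E₄)

theorem E₄cube_apply (z : ℍ) : E₄cube z = E₄ z ^ 3 := by
  show E₄sq z * E₄ z = _
  rw [E₄sq_apply]
  ring

/-- `E₄³ - c Δ` as a modular form of weight 12. -/
noncomputable def fc (c : ℂ) : ModularForm 𝒮ℒ 12 := E₄cube - c • ΔMF

theorem fc_apply (c : ℂ) (z : ℍ) : fc c z = E₄ z ^ 3 - c * Δ z := by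
  show E₄cube z - c • ΔMF z = _
  rw [E₄cube_apply, ΔMF_apply, smul_eq_mul]

theorem tendsto_fc (c : ℂ) : Tendsto (fc c) atImInfty (𝓝 1) := by
  have h := (tendsto_E₄.pow 3).sub (tendsto_Δ.const_mul c)
  simp only [one_pow, mul_zero, sub_zero] at h
  exact h.congr (fun z ↦ (fc_apply c z).symm)

theorem fc_slash (c : ℂ) (γ : SL(2, ℤ)) : (fc c : ℍ → ℂ) ∣[(12 : ℤ)] γ = fc c := by
  have hγ : (γ : GL (Fin 2) ℝ) ∈ 𝒮ℒ := ⟨γ, rfl⟩
  rw [SL_slash]
  exact slash_action_eqn (fc c) _ hγ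

theorem Δ_slash (γ : SL(2, ℤ)) : (Δ : ℍ → ℂ) ∣[(12 : ℤ)] γ = Δ := by
  have hγ : (γ : GL (Fin 2) ℝ) ∈ 𝒮ℒ := ⟨γ, rfl⟩
  rw [SL_slash]
  exact slash_action_eqn CuspForm.discriminant _ hγ

theorem div_fc_slash (c : ℂ) (γ : SL(2, ℤ)) :
    ((Δ : ℍ → ℂ) / (fc c : ℍ → ℂ)) ∣[(12 : ℤ) - 12] γ = (Δ : ℍ → ℂ) / (fc c : ℍ → ℂ) := by
  rw [div_slash_SL2, fc_slash, Δ_slash]

/-- If `E₄³ - cΔ` has no zero then `Δ/(E₄³ - cΔ)` is a modular form of weight `0`. -/
noncomputable def divFc (c : ℂ) (h : ∀ z : ℍ, fc c z ≠ 0) : ModularForm 𝒮ℒ ((12 : ℤ) - 12) where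
  toFun := (Δ : ℍ → ℂ) / (fc c : ℍ → ℂ)
  slash_action_eq' := fun _ ⟨γ, hγ⟩ ↦ hγ ▸ div_fc_slash c γ
  holo' := CuspForm.discriminant.holo'.div (fc c).holo' h
  bdd_at_cusps' {x} hx := by
    rw [Subgroup.IsArithmetic.isCusp_iff_isCusp_SL2Z] at hx
    rw [isBoundedAt_iff_forall_SL2Z hx]
    intro γ _
    rw [div_fc_slash c γ, IsBoundedAtImInfty, BoundedAtFilter]
    have := tendsto_Δ.div (tendsto_fc c) one_ne_zero
    exact this.isBigO_one ℝ

/-- **The `j`-function is surjective.** -/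
theorem jFun_surjective : Function.Surjective jFun := by
  intro c
  by_contra hcon
  have hcon : ∀ z : ℍ, jFun z ≠ c := not_exists.1 hcon
  have h : ∀ z : ℍ, fc c z ≠ 0 := by
    intro z hz
    apply hcon z
    rw [fc_apply, sub_eq_zero] at hz
    rw [jFun, hz, mul_div_cancel_right₀ _ (discriminant_ne_zero z)]
  obtain ⟨a, ha⟩ := levelOne_weight_zero_const
    (ModularForm.mcast (by norm_num : (12 : ℤ) - 12 = 0) (divFc c h))
  have h1 : Tendsto (fun z : ℍ ↦ Δ z / fc c z) atImInfty (𝓝 (0 / 1)) :=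
    tendsto_Δ.div (tendsto_fc c) one_ne_zero
  have h2 : ∀ z : ℍ, Δ z / fc c z = a := fun z ↦ congrFun ha z
  have h3 : Tendsto (fun z : ℍ ↦ Δ z / fc c z) atImInfty (𝓝 a) := by
    simp only [h2]
    exact tendsto_const_nhds
  have h4 : a = 0 := by
    have := tendsto_nhds_unique h3 h1
    simpa using this
  have h5 := h2 UpperHalfPlane.I
  rw [h4, div_eq_zero_iff] at h5
  rcases h5 with h5 | h5
  · exact discriminant_ne_zero _ h5
  · exact h _ h5

/-! ### Special values -/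

theorem E₆_I : E₆ UpperHalfPlane.I = 0 := by
  have hS : (ModularGroup.S : GL (Fin 2) ℝ) ∈ 𝒮ℒ := ⟨ModularGroup.S, rfl⟩
  have h := SlashInvariantForm.slash_action_eqn'' E₆ hS UpperHalfPlane.I
  have h1 : ((ModularGroup.S : SL(2, ℤ)) : GL (Fin 2) ℝ) • UpperHalfPlane.I = UpperHalfPlane.I := by
    show ModularGroup.S • UpperHalfPlane.I = UpperHalfPlane.I
    rw [modular_S_smul]
    ext
    simp [Complex.inv_I]
  have h2 : denom ((ModularGroup.S : SL(2, ℤ)) : GL (Fin 2) ℝ) UpperHalfPlane.I = Complex.I := by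
    simp [denom, ModularGroup.S]
  rw [h1, h2] at h
  have h3 : (Complex.I : ℂ) ^ (6 : ℤ) = -1 := by
    have : (Complex.I : ℂ) ^ (6 : ℤ) = (Complex.I ^ 2) ^ 3 := by
      rw [← pow_mul]; norm_cast
    rw [this, Complex.I_sq]; norm_num
  rw [h3] at h
  have h4 : (2 : ℂ) * E₆ UpperHalfPlane.I = 0 := by linear_combination h
  simpa using h4

theorem jFun_I : jFun UpperHalfPlane.I = 1728 := (jFun_eq_1728_iff _).2 E₆_I

/-- The point `ρ = e^{2πi/3} = -1/2 + (√3/2) i`. -/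
noncomputable def rho : ℍ := ⟨⟨-1 / 2, Real.sqrt 3 / 2⟩, by
  show 0 < Real.sqrt 3 / 2
  positivity⟩

theorem coe_rho : (rho : ℂ) = ⟨-1 / 2, Real.sqrt 3 / 2⟩ := rfl

theorem rho_sq_add : (rho : ℂ) ^ 2 + (rho : ℂ) + 1 = 0 := by
  have h3 : Real.sqrt 3 * Real.sqrt 3 = 3 := Real.mul_self_sqrt (by norm_num)
  apply Complex.ext
  · simp only [coe_rho, pow_two, Complex.add_re, Complex.mul_re, Complex.one_re, Complex.zero_re]
    nlinarith [h3]
  · simp only [coe_rho, pow_two, Complex.add_im, Complex.mul_im, Complex.one_im, Complex.zero_im]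
    ring

theorem ST_smul_rho : (ModularGroup.S * ModularGroup.T) • rho = rho := by
  ext
  rw [coe_specialLinearGroup_apply]
  have hne : (rho : ℂ) + 1 ≠ 0 := by
    intro h
    have := congrArg Complex.im h
    simp only [coe_rho, Complex.add_im, Complex.one_im, Complex.zero_im, add_zero] at this
    have h3 : (0 : ℝ) < Real.sqrt 3 := Real.sqrt_pos.2 (by norm_num)
    linarith
  have e : (ModularGroup.S * ModularGroup.T : SL(2, ℤ)).1 = !![0, -1; 1, 1] := by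
    rw [Matrix.SpecialLinearGroup.coe_mul, ModularGroup.coe_S, ModularGroup.coe_T]
    simp
  have e00 : (ModularGroup.S * ModularGroup.T : SL(2, ℤ)) 0 0 = 0 := by
    show (ModularGroup.S * ModularGroup.T : SL(2, ℤ)).1 0 0 = 0
    rw [e]; rfl
  have e01 : (ModularGroup.S * ModularGroup.T : SL(2, ℤ)) 0 1 = -1 := by
    show (ModularGroup.S * ModularGroup.T : SL(2, ℤ)).1 0 1 = -1
    rw [e]; rfl
  have e10 : (ModularGroup.S * ModularGroup.T : SL(2, ℤ)) 1 0 = 1 := by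
    show (ModularGroup.S * ModularGroup.T : SL(2, ℤ)).1 1 0 = 1
    rw [e]; rfl
  have e11 : (ModularGroup.S * ModularGroup.T : SL(2, ℤ)) 1 1 = 1 := by
    show (ModularGroup.S * ModularGroup.T : SL(2, ℤ)).1 1 1 = 1
    rw [e]; rfl
  rw [e00, e01, e10, e11]
  simp only [algebraMap_int_eq, eq_intCast, Int.cast_zero, Complex.ofReal_zero, zero_mul,
    Int.cast_neg, Int.cast_one, Complex.ofReal_neg, Complex.ofReal_one, zero_add, one_mul]
  rw [div_eq_iff hne]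
  linear_combination (-1 : ℂ) * rho_sq_add

theorem denom_ST_rho :
    denom ((ModularGroup.S * ModularGroup.T : SL(2, ℤ)) : GL (Fin 2) ℝ) rho = (rho : ℂ) + 1 := by
  simp [denom, Matrix.mul_apply, Fin.sum_univ_two]

theorem E₄_rho : E₄ rho = 0 := by
  have hγ : ((ModularGroup.S * ModularGroup.T : SL(2, ℤ)) : GL (Fin 2) ℝ) ∈ 𝒮ℒ := ⟨_, rfl⟩
  have h := SlashInvariantForm.slash_action_eqn'' E₄ hγ rho
  have h1 : ((ModularGroup.S * ModularGroup.T : SL(2, ℤ)) : GL (Fin 2) ℝ) • rho = rho :=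
    ST_smul_rho
  rw [h1, denom_ST_rho] at h
  -- `(ρ+1)^4 = ρ²`-ish; we only need `(ρ+1)^4 ≠ 1`
  have hr := rho_sq_add
  have h4 : ((rho : ℂ) + 1) ^ (4 : ℤ) = -((rho : ℂ) + 1) := by
    have : ((rho : ℂ) + 1) ^ (4 : ℤ) = ((rho : ℂ) + 1) ^ 4 := by norm_cast
    rw [this]
    linear_combination ((rho : ℂ) ^ 2 + 3 * (rho : ℂ) + 2) * hr
  rw [h4] at h
  have h5 : ((rho : ℂ) + 2) * E₄ rho = 0 := by linear_combination h
  rcases mul_eq_zero.1 h5 with h6 | h6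
  · exfalso
    have := congrArg Complex.im h6
    simp only [coe_rho, Complex.add_im, Complex.zero_im] at this
    have h3 : (0 : ℝ) < Real.sqrt 3 := Real.sqrt_pos.2 (by norm_num)
    have h2 : (2 : ℂ).im = 0 := rfl
    rw [h2] at this
    linarith
  · exact h6

theorem jFun_rho : jFun rho = 0 := (jFun_eq_zero_iff _).2 E₄_rho

end Fermat.Agent.LevelOne.JBasic
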