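import Fermat.Agent.LevelOne.JBasic
import Fermat.Agent.LevelOne.EisLattice

/-!
# The `j`-function separates `SL(2,ℤ)`-orbits

`jFun τ₁ = jFun τ₂ → ∃ γ : SL(2,ℤ), γ • τ₂ = τ₁`.
-/

set_option autoImplicit false

open UpperHalfPlane ModularForm EisensteinSeries Filter Topology
open scoped MatrixGroups

namespace Fermat.Agent.LevelOne.JInjective

open Fermat.Agent.LevelOne.JBasic Fermat.Agent.LevelOne.EisLattice Fermat.Agent.LevelOne.Lattice

local notation "Δ" => ModularForm.discriminant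

/-- Weighted projective equality gives a scaling factor. -/
theorem exists_scale {a₁ b₁ a₂ b₂ t : ℂ} (ht : t ≠ 0) (ha : a₂ ^ 3 = t * a₁ ^ 3)
    (hb : b₂ ^ 2 = t * b₁ ^ 2) (h : a₁ ≠ 0 ∨ b₁ ≠ 0) :
    ∃ l : ℂ, l ≠ 0 ∧ a₂ = l ^ 4 * a₁ ∧ b₂ = l ^ 6 * b₁ := by
  by_cases ha1 : a₁ = 0
  · have hb1 : b₁ ≠ 0 := h.resolve_left (not_not.2 ha1)
    have ha2 : a₂ = 0 := by
      rw [ha1] at ha
      simpa using ha
    have hb2 : b₂ ≠ 0 := by
      intro h0
      rw [h0] at hb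
      have : t * b₁ ^ 2 ≠ 0 := mul_ne_zero ht (pow_ne_zero 2 hb1)
      exact this (by simpa using hb.symm)
    obtain ⟨l, hl⟩ := IsAlgClosed.exists_pow_nat_eq (b₂ / b₁) (by norm_num : 0 < 6)
    refine ⟨l, ?_, ?_, ?_⟩
    · rintro rfl
      have : b₂ / b₁ ≠ 0 := div_ne_zero hb2 hb1
      exact this (by rw [← hl]; simp)
    · rw [ha1, ha2]; simp
    · rw [hl, div_mul_cancel₀ _ hb1]
  · by_cases hb1 : b₁ = 0
    · have hb2 : b₂ = 0 := by
        rw [hb1] at hb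
        simpa using hb
      have ha2 : a₂ ≠ 0 := by
        intro h0
        rw [h0] at ha
        have : t * a₁ ^ 3 ≠ 0 := mul_ne_zero ht (pow_ne_zero 3 ha1)
        exact this (by simpa using ha.symm)
      obtain ⟨l, hl⟩ := IsAlgClosed.exists_pow_nat_eq (a₂ / a₁) (by norm_num : 0 < 4)
      refine ⟨l, ?_, ?_, ?_⟩
      · rintro rfl
        have : a₂ / a₁ ≠ 0 := div_ne_zero ha2 ha1
        exact this (by rw [← hl]; simp)
      · rw [hl, div_mul_cancel₀ _ ha1]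
      · rw [hb1, hb2]; simp
    · have ha2 : a₂ ≠ 0 := by
        intro h0
        rw [h0] at ha
        have : t * a₁ ^ 3 ≠ 0 := mul_ne_zero ht (pow_ne_zero 3 ha1)
        exact this (by simpa using ha.symm)
      have hb2 : b₂ ≠ 0 := by
        intro h0
        rw [h0] at hb
        have : t * b₁ ^ 2 ≠ 0 := mul_ne_zero ht (pow_ne_zero 2 hb1)
        exact this (by simpa using hb.symm)
      set μ := a₂ / a₁ with hμ
      set ν := b₂ / b₁ with hν
      have hμ0 : μ ≠ 0 := div_ne_zero ha2 ha1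
      have hν0 : ν ≠ 0 := div_ne_zero hb2 hb1
      have hμ3 : μ ^ 3 = t := by
        rw [hμ, div_pow, ha, mul_div_cancel_right₀ _ (pow_ne_zero 3 ha1)]
      have hν2 : ν ^ 2 = t := by
        rw [hν, div_pow, hb, mul_div_cancel_right₀ _ (pow_ne_zero 2 hb1)]
      obtain ⟨l, hl⟩ := IsAlgClosed.exists_pow_nat_eq (ν / μ) (by norm_num : 0 < 2)
      have hl4 : l ^ 4 = μ := by
        have : l ^ 4 = (l ^ 2) ^ 2 := by ring
        rw [this, hl, div_pow, hν2, ← hμ3]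
        field_simp
      have hl6 : l ^ 6 = ν := by
        have : l ^ 6 = (l ^ 2) ^ 3 := by ring
        rw [this, hl, div_pow, hμ3, ← hν2]
        field_simp
      refine ⟨l, ?_, ?_, ?_⟩
      · rintro rfl
        exact hμ0 (by rw [← hl4]; simp)
      · rw [hl4, hμ, div_mul_cancel₀ _ ha1]
      · rw [hl6, hν, div_mul_cancel₀ _ hb1]

/-- Equal `j`-invariants give a scaling factor between `(E₄, E₆)`. -/
theorem exists_scale_of_jFun_eq {τ₁ τ₂ : ℍ} (h : jFun τ₁ = jFun τ₂) :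
    ∃ l : ℂ, l ≠ 0 ∧ E₄ τ₂ = l ^ 4 * E₄ τ₁ ∧ E₆ τ₂ = l ^ 6 * E₆ τ₁ := by
  have hΔ1 := discriminant_ne_zero τ₁
  have hΔ2 := discriminant_ne_zero τ₂
  have h1728 : jFun τ₁ - 1728 = jFun τ₂ - 1728 := by rw [h]
  rw [jFun_sub_1728, jFun_sub_1728] at h1728
  rw [jFun, jFun] at h
  refine exists_scale (t := Δ τ₂ / Δ τ₁) (div_ne_zero hΔ2 hΔ1) ?_ ?_ ?_
  · rw [div_eq_div_iff hΔ1 hΔ2] at h
    field_simp
    linear_combination -h
  · rw [div_eq_div_iff hΔ1 hΔ2] at h1728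
    field_simp
    linear_combination -h1728
  · by_contra hcon
    rw [not_or, not_not, not_not] at hcon
    exact E₆_ne_zero_of_E₄_eq_zero hcon.1 hcon.2

/-- Two points with proportional lattices are `SL(2,ℤ)`-equivalent. -/
theorem exists_smul_eq_of_lattice_eq {c : ℂ} (hc : c ≠ 0) (τ₁ τ₂ : ℍ)
    (h : (pairOf 1 one_ne_zero τ₁).lattice = (pairOf c hc τ₂).lattice) :
    ∃ γ : SL(2, ℤ), γ • τ₂ = τ₁ := by
  -- membership in both directions
  have m1 : (τ₁ : ℂ) ∈ (pairOf c hc τ₂).lattice := by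
    rw [← h]
    have := (pairOf 1 one_ne_zero τ₁).ω₁_mem_lattice
    simpa using this
  have m2 : (1 : ℂ) ∈ (pairOf c hc τ₂).lattice := by
    rw [← h]
    exact (pairOf 1 one_ne_zero τ₁).ω₂_mem_lattice
  have m3 : c * (τ₂ : ℂ) ∈ (pairOf 1 one_ne_zero τ₁).lattice := by
    rw [h]
    exact (pairOf c hc τ₂).ω₁_mem_lattice
  have m4 : c ∈ (pairOf 1 one_ne_zero τ₁).lattice := by
    rw [h]
    exact (pairOf c hc τ₂).ω₂_mem_lattice
  obtain ⟨a, b, hab⟩ := PeriodPair.mem_lattice.1 m1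
  obtain ⟨c', d, hcd⟩ := PeriodPair.mem_lattice.1 m2
  obtain ⟨a', b', hab'⟩ := PeriodPair.mem_lattice.1 m3
  obtain ⟨c'', d', hcd'⟩ := PeriodPair.mem_lattice.1 m4
  simp only [pairOf_ω₁, pairOf_ω₂, one_mul, mul_one] at hab hcd hab' hcd'
  -- the key relation `τ₁ (c' τ₂ + d) = a τ₂ + b`
  have hw : c * ((c' : ℂ) * τ₂ + d) = 1 := by linear_combination hcd
  have hw0 : (c' : ℂ) * τ₂ + d ≠ 0 := right_ne_zero_of_mul_eq_one hw
  have hrel : (τ₁ : ℂ) * ((c' : ℂ) * τ₂ + d) = a * τ₂ + b := by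
    have : c * ((τ₁ : ℂ) * ((c' : ℂ) * τ₂ + d)) = c * (a * τ₂ + b) := by
      linear_combination (τ₁ : ℂ) * hw - hab
    exact mul_left_cancel₀ hc this
  -- integrality: `M M' = 1`
  have hτ1 : (τ₁ : ℂ) = ((a * a' + b * c'' : ℤ) : ℂ) * τ₁ + ((a * b' + b * d' : ℤ) : ℂ) := by
    push_cast
    linear_combination -hab - (a : ℂ) * hab' - (b : ℂ) * hcd'
  have hone : (1 : ℂ) = ((c' * a' + d * c'' : ℤ) : ℂ) * τ₁ + ((c' * b' + d * d' : ℤ) : ℂ) := by
    push_cast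
    linear_combination -hcd - (c' : ℂ) * hab' - (d : ℂ) * hcd'
  have key : ∀ m n : ℤ, (m : ℂ) * τ₁ + n = 0 → m = 0 ∧ n = 0 := by
    intro m n hmn
    have h3 := congrArg Complex.im hmn
    simp only [Complex.add_im, Complex.mul_im, Complex.intCast_re, Complex.intCast_im, zero_mul,
      add_zero, Complex.zero_im, UpperHalfPlane.coe_im] at h3
    have hm : (m : ℝ) = 0 := (mul_eq_zero.1 h3).resolve_right τ₁.im_pos.ne'
    have hm' : m = 0 := by exact_mod_cast hm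
    subst hm'
    simp only [Int.cast_zero, zero_mul, zero_add] at hmn
    exact ⟨rfl, by exact_mod_cast hmn⟩
  have e1 := key (a * a' + b * c'' - 1) (a * b' + b * d') (by
    push_cast at hτ1 ⊢
    linear_combination -hτ1)
  have e2 := key (c' * a' + d * c'') (c' * b' + d * d' - 1) (by
    push_cast at hone ⊢
    linear_combination -hone)
  have hdet : (a * d - b * c') * (a' * d' - b' * c'') = 1 := by
    have h11 : a * a' + b * c'' = 1 := by linarith [e1.1]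
    have h12 : a * b' + b * d' = 0 := e1.2
    have h21 : c' * a' + d * c'' = 0 := e2.1
    have h22 : c' * b' + d * d' = 1 := by linarith [e2.2]
    calc (a * d - b * c') * (a' * d' - b' * c'')
        = (a * a' + b * c'') * (c' * b' + d * d') - (a * b' + b * d') * (c' * a' + d * c'') := by
          ring
      _ = 1 := by rw [h11, h12, h21, h22]; ring
  have hunit : a * d - b * c' = 1 ∨ a * d - b * c' = -1 :=
    Int.isUnit_iff.1 (IsUnit.of_mul_eq_one _ hdet)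
  -- sign of the determinant
  have hre := congrArg Complex.re hrel
  have him := congrArg Complex.im hrel
  simp only [Complex.mul_re, Complex.mul_im, Complex.add_re, Complex.add_im, Complex.intCast_re,
    Complex.intCast_im, zero_mul, sub_zero, add_zero, UpperHalfPlane.coe_re,
    UpperHalfPlane.coe_im] at hre him
  have hpos : 0 < ((c' : ℝ) * τ₂.re + d) ^ 2 + ((c' : ℝ) * τ₂.im) ^ 2 := by
    by_contra hnp
    have h0 : ((c' : ℝ) * τ₂.re + d) ^ 2 + ((c' : ℝ) * τ₂.im) ^ 2 = 0 :=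
      le_antisymm (not_lt.1 hnp) (by positivity)
    have hA2 : ((c' : ℝ) * τ₂.re + d) ^ 2 = 0 := by
      nlinarith [sq_nonneg ((c' : ℝ) * τ₂.re + d), sq_nonneg ((c' : ℝ) * τ₂.im)]
    have hB2 : ((c' : ℝ) * τ₂.im) ^ 2 = 0 := by
      nlinarith [sq_nonneg ((c' : ℝ) * τ₂.re + d), sq_nonneg ((c' : ℝ) * τ₂.im)]
    have hA : (c' : ℝ) * τ₂.re + d = 0 := pow_eq_zero_iff (two_ne_zero) |>.1 hA2
    have hB : (c' : ℝ) * τ₂.im = 0 := pow_eq_zero_iff (two_ne_zero) |>.1 hB2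
    apply hw0
    apply Complex.ext
    · simp [hA]
    · simp [hB]
  have hsign : τ₁.im * (((c' : ℝ) * τ₂.re + d) ^ 2 + ((c' : ℝ) * τ₂.im) ^ 2) =
      ((a * d - b * c' : ℤ) : ℝ) * τ₂.im := by
    push_cast
    linear_combination ((c' : ℝ) * τ₂.re + d) * him - ((c' : ℝ) * τ₂.im) * hre
  have hdet1 : a * d - b * c' = 1 := by
    rcases hunit with h1 | h1
    · exact h1
    · exfalso
      rw [h1] at hsign
      have h5 : 0 < τ₁.im * (((c' : ℝ) * τ₂.re + d) ^ 2 + ((c' : ℝ) * τ₂.im) ^ 2) :=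
        mul_pos τ₁.im_pos hpos
      have h6 : ((-1 : ℤ) : ℝ) * τ₂.im < 0 := by
        have := τ₂.im_pos
        push_cast
        linarith
      linarith
  -- the matrix
  refine ⟨⟨!![a, b; c', d], by rw [Matrix.det_fin_two_of]; exact hdet1⟩, ?_⟩
  ext
  rw [coe_specialLinearGroup_apply]
  simp only [Matrix.of_apply, Matrix.cons_val', Matrix.cons_val_zero,
    Matrix.cons_val_fin_one, Matrix.cons_val_one, algebraMap_int_eq, eq_intCast, Complex.ofReal_intCast]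
  rw [div_eq_iff hw0]
  exact hrel.symm

/-- **The `j`-function separates `SL(2,ℤ)`-orbits.** -/
theorem exists_smul_eq_of_jFun_eq {τ₁ τ₂ : ℍ} (h : jFun τ₁ = jFun τ₂) :
    ∃ γ : SL(2, ℤ), γ • τ₂ = τ₁ := by
  obtain ⟨l, hl, h4, h6⟩ := exists_scale_of_jFun_eq h
  apply exists_smul_eq_of_lattice_eq hl τ₁ τ₂
  apply lattice_eq_of_g_eq
  · rw [g₂_pairOf, g₂_pairOf, h4]
    have : l ^ 4 ≠ 0 := pow_ne_zero 4 hl
    field_simp
  · rw [g₃_pairOf, g₃_pairOf, h6]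
    have : l ^ 6 ≠ 0 := pow_ne_zero 6 hl
    field_simp

/-- `jFun τ₁ = jFun τ₂` iff `τ₁`, `τ₂` are in the same `SL(2,ℤ)`-orbit. -/
theorem jFun_eq_iff {τ₁ τ₂ : ℍ} : jFun τ₁ = jFun τ₂ ↔ ∃ γ : SL(2, ℤ), γ • τ₂ = τ₁ := by
  constructor
  · exact exists_smul_eq_of_jFun_eq
  · rintro ⟨γ, rfl⟩
    exact jFun_smul γ τ₂

/-- The zeros of `E₄` are exactly the `SL(2,ℤ)`-orbit of `ρ`. -/
theorem E₄_eq_zero_iff (τ : ℍ) : E₄ τ = 0 ↔ ∃ γ : SL(2, ℤ), γ • rho = τ := by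
  rw [← jFun_eq_zero_iff, ← jFun_rho, jFun_eq_iff]

/-- The zeros of `E₆` are exactly the `SL(2,ℤ)`-orbit of `i`. -/
theorem E₆_eq_zero_iff (τ : ℍ) : E₆ τ = 0 ↔ ∃ γ : SL(2, ℤ), γ • UpperHalfPlane.I = τ := by
  rw [← jFun_eq_1728_iff, ← jFun_I, jFun_eq_iff]

end Fermat.Agent.LevelOne.JInjective
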