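import Mathlib

/-!
# A lattice in `ℂ` is determined by its invariants `g₂`, `g₃`

If two period pairs have the same `g₂` and `g₃` then their Weierstrass `℘`-functions coincide
(uniqueness for the differential equation `℘'² = 4℘³ - g₂℘ - g₃` at the singular point `0`), hence
their lattices (the pole sets) coincide.
-/

set_option autoImplicit false

open Filter Topology
open scoped PeriodPair

namespace Fermat.Agent.LevelOne.Lattice

/-- A Fuchs-type uniqueness lemma: an analytic germ `h` at `0` with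
`z h'(z) α(z) = h(z) β(z)`, `α → a`, `β → b` and `n a ≠ b` for all `n : ℕ` vanishes identically. -/
theorem eventuallyEq_zero_of_fuchs {h α β : ℂ → ℂ} (hh : AnalyticAt ℂ h 0) {a b : ℂ}
    (hα : Tendsto α (𝓝[≠] 0) (𝓝 a)) (hβ : Tendsto β (𝓝[≠] 0) (𝓝 b))
    (heq : ∀ᶠ z in 𝓝[≠] 0, z * deriv h z * α z = h z * β z)
    (hab : ∀ n : ℕ, (n : ℂ) * a ≠ b) : ∀ᶠ z in 𝓝 0, h z = 0 := by
  by_contra hne
  have htop : analyticOrderAt h 0 ≠ ⊤ := fun ht ↦ hne (analyticOrderAt_eq_top.1 ht)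
  obtain ⟨n, hn⟩ := ENat.ne_top_iff_exists.1 htop
  obtain ⟨k, hk, hk0, hhk⟩ := (hh.analyticOrderAt_eq_natCast).1 hn.symm
  simp only [sub_zero, smul_eq_mul] at hhk
  -- derivative of `h` near `0`
  have hder : ∀ᶠ z in 𝓝 (0:ℂ), deriv h z = deriv (fun z ↦ z ^ n * k z) z :=
    (Filter.EventuallyEq.deriv (show h =ᶠ[𝓝 0] fun z ↦ z ^ n * k z from hhk))
  have hkan : ∀ᶠ z in 𝓝 (0:ℂ), AnalyticAt ℂ k z := hk.eventually_analyticAt
  have hder2 : ∀ᶠ z in 𝓝 (0:ℂ), z * deriv h z = z ^ n * (n * k z + z * deriv k z) := by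
    filter_upwards [hder, hkan] with z hz hkz
    rw [hz]
    have h1 : HasDerivAt (fun z ↦ z ^ n * k z) (n * z ^ (n - 1) * k z + z ^ n * deriv k z) z :=
      (hasDerivAt_pow n z).mul hkz.differentiableAt.hasDerivAt
    rw [h1.deriv]
    rcases Nat.eq_zero_or_pos n with rfl | hpos
    · simp
    · have : z * z ^ (n - 1) = z ^ n := by
        rw [← pow_succ', Nat.sub_add_cancel hpos]
      linear_combination (n * k z) * this
  have hmain : ∀ᶠ z in 𝓝[≠] (0:ℂ), (n * k z + z * deriv k z) * α z = k z * β z := by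
    filter_upwards [heq, hder2.filter_mono nhdsWithin_le_nhds, hhk.filter_mono nhdsWithin_le_nhds,
      self_mem_nhdsWithin] with z h1 h2 h3 hz
    have hz0 : z ≠ 0 := hz
    rw [h2, h3] at h1
    have hzn : z ^ n ≠ 0 := pow_ne_zero n hz0
    apply mul_left_cancel₀ hzn
    linear_combination h1
  -- take limits
  have hkc : Tendsto k (𝓝[≠] 0) (𝓝 (k 0)) := hk.continuousAt.tendsto.mono_left nhdsWithin_le_nhds
  have hdk : Tendsto (deriv k) (𝓝[≠] 0) (𝓝 (deriv k 0)) :=
    hk.deriv.continuousAt.tendsto.mono_left nhdsWithin_le_nhds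
  have hid : Tendsto (fun z : ℂ ↦ z) (𝓝[≠] 0) (𝓝 0) :=
    (continuous_id.tendsto (0:ℂ)).mono_left nhdsWithin_le_nhds
  have hL : Tendsto (fun z ↦ (n * k z + z * deriv k z) * α z) (𝓝[≠] 0)
      (𝓝 ((n * k 0 + 0 * deriv k 0) * a)) :=
    (((hkc.const_mul (n:ℂ)).add (hid.mul hdk)).mul hα)
  have hR : Tendsto (fun z ↦ k z * β z) (𝓝[≠] 0) (𝓝 (k 0 * b)) := hkc.mul hβ
  have huniq := tendsto_nhds_unique (hL.congr' hmain) hR
  apply hab n
  apply mul_left_cancel₀ hk0
  linear_combination huniq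

variable (L L' : PeriodPair)

/-- Near `0` (excluding `0`) there are no lattice points. -/
theorem eventually_notMem_lattice : ∀ᶠ z in 𝓝[≠] (0:ℂ), z ∉ L.lattice := by
  have h := L.compl_lattice_sdiff_singleton_mem_nhds 0
  filter_upwards [mem_nhdsWithin_of_mem_nhds h, self_mem_nhdsWithin] with z hz hz0
  intro hmem
  exact hz ⟨hmem, hz0⟩

theorem weierstrassP_eq_except (z : ℂ) :
    L.weierstrassP z = L.weierstrassPExcept 0 z + 1 / z ^ 2 := by
  have := L.weierstrassPExcept_add (0 : L.lattice) z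
  simp only [ZeroMemClass.coe_zero, sub_zero, ne_eq, OfNat.ofNat_ne_zero, not_false_eq_true,
    zero_pow, div_zero] at this
  exact this.symm

theorem derivWeierstrassP_eq_except (z : ℂ) :
    L.derivWeierstrassP z = L.derivWeierstrassPExcept 0 z - 2 / z ^ 3 := by
  have := L.derivWeierstrassPExcept_sub (0 : L.lattice) z
  simp only [ZeroMemClass.coe_zero, sub_zero] at this
  exact this.symm

theorem tendsto_sq_mul_weierstrassP :
    Tendsto (fun z ↦ z ^ 2 * L.weierstrassP z) (𝓝[≠] 0) (𝓝 1) := by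
  have h1 : Tendsto (fun z ↦ z ^ 2 * L.weierstrassPExcept 0 z + 1) (𝓝[≠] 0)
      (𝓝 (0 ^ 2 * L.weierstrassPExcept 0 0 + 1)) := by
    have hc : ContinuousAt (fun z ↦ z ^ 2 * L.weierstrassPExcept 0 z + 1) 0 := by
      have := (L.analyticAt_weierstrassPExcept 0).continuousAt
      fun_prop
    exact hc.tendsto.mono_left nhdsWithin_le_nhds
  have h2 : (0:ℂ) ^ 2 * L.weierstrassPExcept 0 0 + 1 = 1 := by simp
  rw [h2] at h1
  refine h1.congr' ?_
  filter_upwards [self_mem_nhdsWithin] with z hz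
  have hz0 : z ≠ 0 := hz
  rw [weierstrassP_eq_except]
  field_simp

theorem tendsto_cube_mul_derivWeierstrassP :
    Tendsto (fun z ↦ z ^ 3 * L.derivWeierstrassP z) (𝓝[≠] 0) (𝓝 (-2)) := by
  have h1 : Tendsto (fun z ↦ z ^ 3 * L.derivWeierstrassPExcept 0 z - 2) (𝓝[≠] 0)
      (𝓝 (0 ^ 3 * L.derivWeierstrassPExcept 0 0 - 2)) := by
    have hc : ContinuousAt (fun z ↦ z ^ 3 * L.derivWeierstrassPExcept 0 z - 2) 0 := by
      have := (L.analyticAt_derivWeierstrassPExcept 0).continuousAt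
      fun_prop
    exact hc.tendsto.mono_left nhdsWithin_le_nhds
  have h2 : (0:ℂ) ^ 3 * L.derivWeierstrassPExcept 0 0 - 2 = -2 := by simp
  rw [h2] at h1
  refine h1.congr' ?_
  filter_upwards [self_mem_nhdsWithin] with z hz
  have hz0 : z ≠ 0 := hz
  rw [derivWeierstrassP_eq_except]
  field_simp

/-- The difference of the regular parts of `℘[L]` and `℘[L']` at `0`. -/
noncomputable def hDiff : ℂ → ℂ := fun z ↦ L.weierstrassPExcept 0 z - L'.weierstrassPExcept 0 z

theorem analyticAt_hDiff : AnalyticAt ℂ (hDiff L L') 0 :=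
  (L.analyticAt_weierstrassPExcept 0).sub (L'.analyticAt_weierstrassPExcept 0)

theorem hDiff_eq (z : ℂ) : hDiff L L' z = L.weierstrassP z - L'.weierstrassP z := by
  rw [weierstrassP_eq_except, weierstrassP_eq_except, hDiff]
  ring

theorem deriv_hDiff : ∀ᶠ z in 𝓝[≠] (0:ℂ),
    deriv (hDiff L L') z = L.derivWeierstrassP z - L'.derivWeierstrassP z := by
  filter_upwards [eventually_notMem_lattice L, eventually_notMem_lattice L'] with z hz hz'
  have h1 : HasDerivAt (L.weierstrassPExcept 0) (L.derivWeierstrassPExcept 0 z) z := by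
    have hmem : z ∈ ((L.lattice : Set ℂ) \ {0})ᶜ := fun h ↦ hz h.1
    have hd : DifferentiableAt ℂ (L.weierstrassPExcept 0) z :=
      (L.analyticOnNhd_weierstrassPExcept 0 z hmem).differentiableAt
    rw [← L.eqOn_deriv_weierstrassPExcept_derivWeierstrassPExcept 0 hmem]
    exact hd.hasDerivAt
  have h2 : HasDerivAt (L'.weierstrassPExcept 0) (L'.derivWeierstrassPExcept 0 z) z := by
    have hmem : z ∈ ((L'.lattice : Set ℂ) \ {0})ᶜ := fun h ↦ hz' h.1
    have hd : DifferentiableAt ℂ (L'.weierstrassPExcept 0) z :=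
      (L'.analyticOnNhd_weierstrassPExcept 0 z hmem).differentiableAt
    rw [← L'.eqOn_deriv_weierstrassPExcept_derivWeierstrassPExcept 0 hmem]
    exact hd.hasDerivAt
  have h3 : HasDerivAt (hDiff L L') (L.derivWeierstrassPExcept 0 z - L'.derivWeierstrassPExcept 0 z) z :=
    h1.sub h2
  rw [h3.deriv, derivWeierstrassP_eq_except, derivWeierstrassP_eq_except]
  ring

/-- Two period pairs with the same `g₂`, `g₃` have the same `℘` near `0`. -/
theorem hDiff_eventually_zero (h2 : L.g₂ = L'.g₂) (h3 : L.g₃ = L'.g₃) :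
    ∀ᶠ z in 𝓝 (0:ℂ), hDiff L L' z = 0 := by
  set α : ℂ → ℂ := fun z ↦ z ^ 3 * L.derivWeierstrassP z + z ^ 3 * L'.derivWeierstrassP z with hα
  set β : ℂ → ℂ := fun z ↦ 4 * ((z ^ 2 * L.weierstrassP z) ^ 2 +
    (z ^ 2 * L.weierstrassP z) * (z ^ 2 * L'.weierstrassP z) + (z ^ 2 * L'.weierstrassP z) ^ 2)
    - z ^ 4 * L.g₂ with hβ
  have hαt : Tendsto α (𝓝[≠] 0) (𝓝 (-2 + -2)) :=
    (tendsto_cube_mul_derivWeierstrassP L).add (tendsto_cube_mul_derivWeierstrassP L')
  have hid : Tendsto (fun z : ℂ ↦ z ^ 4 * L.g₂) (𝓝[≠] 0) (𝓝 (0 ^ 4 * L.g₂)) := by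
    have hc : ContinuousAt (fun z : ℂ ↦ z ^ 4 * L.g₂) 0 := by fun_prop
    exact hc.tendsto.mono_left nhdsWithin_le_nhds
  have hβt : Tendsto β (𝓝[≠] 0) (𝓝 (4 * (1 ^ 2 + 1 * 1 + 1 ^ 2) - 0 ^ 4 * L.g₂)) := by
    have t1 := tendsto_sq_mul_weierstrassP L
    have t2 := tendsto_sq_mul_weierstrassP L'
    exact ((((t1.pow 2).add (t1.mul t2)).add (t2.pow 2)).const_mul 4).sub hid
  refine eventuallyEq_zero_of_fuchs (analyticAt_hDiff L L') hαt hβt ?_ ?_
  · filter_upwards [deriv_hDiff L L', eventually_notMem_lattice L,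
      eventually_notMem_lattice L'] with z hd hz hz'
    rw [hd, hDiff_eq]
    have e1 := L.derivWeierstrassP_sq z hz
    have e2 := L'.derivWeierstrassP_sq z hz'
    rw [← h2, ← h3] at e2
    simp only [hα, hβ]
    linear_combination (z ^ 4) * e1 - (z ^ 4) * e2
  · intro n h
    have h' : (n : ℂ) * (-4) = 12 := by
      have : (4 : ℂ) * (1 ^ 2 + 1 * 1 + 1 ^ 2) - 0 ^ 4 * L.g₂ = 12 := by norm_num
      rw [← this, ← h]
      ring
    have h'' : (n : ℂ) = -3 := by linear_combination (-1/4 : ℂ) * h'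
    have h3 : ((n : ℂ)).re = -3 := by rw [h'']; simp
    simp only [Complex.natCast_re] at h3
    have : (0 : ℝ) ≤ (n : ℝ) := Nat.cast_nonneg n
    linarith

theorem weierstrassP_eventuallyEq (h2 : L.g₂ = L'.g₂) (h3 : L.g₃ = L'.g₃) :
    L.weierstrassP =ᶠ[𝓝 0] L'.weierstrassP := by
  filter_upwards [hDiff_eventually_zero L L' h2 h3] with z hz
  rw [hDiff_eq] at hz
  exact sub_eq_zero.1 hz

theorem isPreconnected_compl_union :
    IsPreconnected ((L.lattice : Set ℂ) ∪ (L'.lattice : Set ℂ))ᶜ := by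
  have hc1 : (L.lattice : Set ℂ).Countable :=
    Set.countable_coe_iff.1 (inferInstanceAs (Countable L.lattice))
  have hc2 : (L'.lattice : Set ℂ).Countable :=
    Set.countable_coe_iff.1 (inferInstanceAs (Countable L'.lattice))
  have hc : ((L.lattice : Set ℂ) ∪ (L'.lattice : Set ℂ)).Countable := hc1.union hc2
  exact (hc.isConnected_compl_of_one_lt_rank
    (by simp only [Complex.rank_real_complex, Nat.one_lt_ofNat])).isPreconnected

/-- Two period pairs with the same `g₂`, `g₃` have the same `℘` away from the lattices. -/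
theorem weierstrassP_eqOn (h2 : L.g₂ = L'.g₂) (h3 : L.g₃ = L'.g₃) :
    Set.EqOn L.weierstrassP L'.weierstrassP ((L.lattice : Set ℂ) ∪ (L'.lattice : Set ℂ))ᶜ := by
  have hev := weierstrassP_eventuallyEq L L' h2 h3
  have hev2 : ∀ᶠ z in 𝓝 (0:ℂ), L.weierstrassP =ᶠ[𝓝 z] L'.weierstrassP :=
    eventually_eventually_nhds.2 hev
  have hfreq : ∀ᶠ z in 𝓝[≠] (0:ℂ), (L.weierstrassP =ᶠ[𝓝 z] L'.weierstrassP) ∧
      z ∉ L.lattice ∧ z ∉ L'.lattice := by
    filter_upwards [hev2.filter_mono nhdsWithin_le_nhds, eventually_notMem_lattice L,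
      eventually_notMem_lattice L'] with z h1 h2 h3
    exact ⟨h1, h2, h3⟩
  obtain ⟨z₀, hz₀, hz1, hz2⟩ := hfreq.exists
  have hmem : z₀ ∈ ((L.lattice : Set ℂ) ∪ (L'.lattice : Set ℂ))ᶜ := by
    simp only [Set.mem_compl_iff, Set.mem_union, SetLike.mem_coe, not_or]
    exact ⟨hz1, hz2⟩
  refine AnalyticOnNhd.eqOn_of_preconnected_of_eventuallyEq (𝕜 := ℂ) ?_ ?_
    (isPreconnected_compl_union L L') hmem hz₀
  · exact L.analyticOnNhd_weierstrassP.mono (by
      intro z hz
      simp only [Set.mem_compl_iff, Set.mem_union, SetLike.mem_coe, not_or] at hz ⊢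
      exact hz.1)
  · exact L'.analyticOnNhd_weierstrassP.mono (by
      intro z hz
      simp only [Set.mem_compl_iff, Set.mem_union, SetLike.mem_coe, not_or] at hz ⊢
      exact hz.2)

theorem lattice_le_of_g_eq (h2 : L.g₂ = L'.g₂) (h3 : L.g₃ = L'.g₃) :
    L.lattice ≤ L'.lattice := by
  intro x hx
  by_contra hx'
  have hEq := weierstrassP_eqOn L L' h2 h3
  -- punctured neighbourhood of `x` inside the complement of both lattices
  have h1 : ∀ᶠ z in 𝓝[≠] x, z ∉ L.lattice := by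
    have h := L.compl_lattice_sdiff_singleton_mem_nhds x
    filter_upwards [mem_nhdsWithin_of_mem_nhds h, self_mem_nhdsWithin] with z hz hzx
    intro hmem
    exact hz ⟨hmem, hzx⟩
  have h2' : ∀ᶠ z in 𝓝[≠] x, z ∉ L'.lattice := by
    have h : ((L'.lattice : Set ℂ))ᶜ ∈ 𝓝 x := L'.isClosed_lattice.isOpen_compl.mem_nhds hx'
    filter_upwards [mem_nhdsWithin_of_mem_nhds h] with z hz
    exact hz
  have hcongr : L.weierstrassP =ᶠ[𝓝[≠] x] L'.weierstrassP := by
    filter_upwards [h1, h2'] with z hz hz'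
    apply hEq
    simp only [Set.mem_compl_iff, Set.mem_union, SetLike.mem_coe, not_or]
    exact ⟨hz, hz'⟩
  have hord := meromorphicOrderAt_congr hcongr
  rw [L.order_weierstrassP x hx] at hord
  have han : AnalyticAt ℂ L'.weierstrassP x := L'.analyticOnNhd_weierstrassP x hx'
  have hnonneg : (0 : WithTop ℤ) ≤ meromorphicOrderAt L'.weierstrassP x :=
    han.meromorphicOrderAt_nonneg
  rw [← hord] at hnonneg
  exact absurd hnonneg (by decide)

/-- **A lattice is determined by `g₂` and `g₃`.** -/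
theorem lattice_eq_of_g_eq (h2 : L.g₂ = L'.g₂) (h3 : L.g₃ = L'.g₃) :
    L.lattice = L'.lattice :=
  le_antisymm (lattice_le_of_g_eq L L' h2 h3) (lattice_le_of_g_eq L' L h2.symm h3.symm)

end Fermat.Agent.LevelOne.Lattice
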