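import Mathlib

/-!
# Ramanujan's identities for level one Eisenstein series

`∂₄ E₄ = -E₆/3`, `∂₆ E₆ = -E₄²/2`, `D Δ = E₂ Δ` where `D = (2πi)⁻¹ d/dτ` and `∂_k = D - (k/12) E₂`
(Mathlib `Derivative.serreDerivative`).
-/

set_option autoImplicit false

open UpperHalfPlane ModularForm SlashInvariantForm SlashInvariantFormClass ModularFormClass
  CuspFormClass MatrixGroups OnePoint Filter EisensteinSeries Asymptotics Derivative
open scoped Topology Manifold

namespace Fermat.Agent.LevelOne.Ramanujan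

local notation "𝕢" => Function.Periodic.qParam

/-- Cauchy estimate: if `F` is holomorphic on `ℍ` and tends to a limit at `i∞`, then `D F → 0`. -/
theorem tendsto_D_atImInfty {F : ℍ → ℂ} (hF : MDiff F) {c : ℂ} (h : Tendsto F atImInfty (𝓝 c)) :
    Tendsto (D F) atImInfty (𝓝 0) := by
  rw [Metric.tendsto_nhds]
  intro ε hε
  have h1 : ∀ᶠ z in atImInfty, dist (F z) c < ε := (Metric.tendsto_nhds.1 h) ε hε
  rw [Filter.Eventually, atImInfty_mem] at h1
  obtain ⟨A, hA⟩ := h1
  rw [Filter.Eventually, atImInfty_mem]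
  refine ⟨max A 1 + 1, fun z hz => ?_⟩
  simp only [Set.mem_ofPred_eq, dist_zero_right]
  have hFd : DifferentiableOn ℂ (F ∘ ofComplex) upperHalfPlaneSet :=
    UpperHalfPlane.mdifferentiable_iff.1 hF
  set g : ℂ → ℂ := fun w => (F ∘ ofComplex) w - c with hg
  have hgd : DifferentiableOn ℂ g upperHalfPlaneSet := hFd.sub (differentiableOn_const c)
  have hsub : Metric.closedBall (z : ℂ) 1 ⊆ upperHalfPlaneSet := by
    intro w hw
    have h2 : |(w - z).im| ≤ 1 := (Complex.abs_im_le_norm _).trans (by simpa [dist_eq_norm] using hw)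
    have h3 : (w - (z:ℂ)).im = w.im - z.im := by simp
    rw [h3, abs_le] at h2
    have h4 : max A 1 + 1 ≤ z.im := hz
    have h5 : (1:ℝ) ≤ max A 1 := le_max_right _ _
    show 0 < w.im
    linarith [h2.1]
  have hdc : DiffContOnCl ℂ g (Metric.ball (z : ℂ) 1) := by
    refine DifferentiableOn.diffContOnCl ?_
    rw [closure_ball _ one_ne_zero]
    exact hgd.mono hsub
  have hbound : ∀ w ∈ Metric.sphere (z : ℂ) 1, ‖g w‖ ≤ ε := by
    intro w hw
    have hw' : w ∈ Metric.closedBall (z : ℂ) 1 := Metric.sphere_subset_closedBall hw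
    have hwim : 0 < w.im := hsub hw'
    have h2 : |(w - z).im| ≤ 1 := (Complex.abs_im_le_norm _).trans (by simpa [dist_eq_norm] using hw')
    have h3 : (w - (z:ℂ)).im = w.im - z.im := by simp
    rw [h3, abs_le] at h2
    have h4 : max A 1 + 1 ≤ z.im := hz
    have h5 : A ≤ max A 1 := le_max_left _ _
    have h6 : A ≤ (ofComplex w).im := by
      rw [ofComplex_apply_of_im_pos hwim]
      show A ≤ w.im
      linarith [h2.1]
    have := hA (ofComplex w) h6
    simp only [Set.mem_ofPred_eq, dist_eq_norm] at this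
    simpa [hg] using this.le
  have hder := Complex.norm_deriv_le_of_forall_mem_sphere_norm_le one_pos hdc hbound
  have hderiv : deriv g z = deriv (F ∘ ofComplex) z := by
    rw [hg]
    exact deriv_sub_const (f := F ∘ ofComplex) (x := (z:ℂ)) c
  rw [hderiv, div_one] at hder
  have h2pi : ‖(2 * (Real.pi : ℂ) * Complex.I)‖ = 2 * Real.pi := by
    simp [abs_of_pos Real.pi_pos]
  rw [normalizedDerivOfComplex, norm_mul, norm_inv, h2pi]
  have hpi : (1:ℝ) < 2 * Real.pi := by linarith [Real.pi_gt_three]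
  calc (2 * Real.pi)⁻¹ * ‖deriv (F ∘ ofComplex) z‖ ≤ (2 * Real.pi)⁻¹ * ε := by gcongr
    _ < 1 * ε := by
        apply mul_lt_mul_of_pos_right _ hε
        exact inv_lt_one_of_one_lt₀ hpi
    _ = ε := one_mul _

/-- A level one modular form tends to its constant `q`-coefficient at `i∞`. -/
theorem tendsto_coeff_zero {k : ℤ} (f : ModularForm 𝒮ℒ k) :
    Tendsto f atImInfty (𝓝 ((qExpansion 1 f).coeff 0)) := by
  have hper := SlashInvariantFormClass.periodic_comp_ofComplex f one_mem_strictPeriods_SL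
  have han : AnalyticAt ℂ (cuspFunction 1 f) 0 :=
    ModularFormClass.analyticAt_cuspFunction_zero f one_pos one_mem_strictPeriods_SL
  have h0 : (qExpansion 1 f).coeff 0 = cuspFunction 1 f 0 := by
    simp [qExpansion_coeff]
  have hcomp : (cuspFunction 1 f ∘ fun τ : ℍ ↦ 𝕢 1 τ : ℍ → ℂ) = f := by
    funext τ
    simpa using eq_cuspFunction τ one_ne_zero hper
  rw [h0]
  have := han.continuousAt.tendsto.comp (qParam_tendsto_atImInfty one_pos)
  rwa [hcomp] at this

theorem E2_vadd_one (z : ℍ) : E2 ((1 : ℝ) +ᵥ z) = E2 z := by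
  rw [E2_eq_tsum_cexp, E2_eq_tsum_cexp]
  have : Complex.exp (2 * Real.pi * Complex.I * (((1 : ℝ) +ᵥ z : ℍ) : ℂ)) =
      Complex.exp (2 * Real.pi * Complex.I * (z : ℂ)) := by
    rw [UpperHalfPlane.coe_vadd]
    push_cast
    rw [mul_add, mul_one, add_comm, Complex.exp_add, Complex.exp_two_pi_mul_I, mul_one]
  simp only [this]

theorem periodic_E2 : Function.Periodic (E2 ∘ ofComplex) 1 := by
  intro w
  by_cases hw : 0 < w.im
  · have hw1 : 0 < (w + 1).im := by simpa using hw
    simp only [Function.comp_apply, ofComplex_apply_of_im_pos hw1, ofComplex_apply_of_im_pos hw]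
    rw [← E2_vadd_one ⟨w, hw⟩]
    congr 1
    ext
    simp [UpperHalfPlane.coe_vadd, add_comm]
  · have hw' : w.im ≤ 0 := not_lt.1 hw
    have hw1 : (w + 1).im ≤ 0 := by simpa using hw'
    simp [ofComplex_apply_of_im_nonpos hw1, ofComplex_apply_of_im_nonpos hw']

theorem analyticAt_cuspFunction_E2 : AnalyticAt ℂ (cuspFunction 1 E2) 0 :=
  analyticAt_cuspFunction_zero one_pos periodic_E2 E2_mdifferentiable isBoundedAtImInfty_E2

theorem tendsto_E2 : Tendsto E2 atImInfty (𝓝 1) := by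
  have han := analyticAt_cuspFunction_E2
  have hps := hasFPowerSeriesOnBall_cuspFunction (f := E2)
    (c := fun m : ℕ ↦ (if m = 0 then 1 else -24 * (ArithmeticFunction.sigma 1 m : ℂ))) one_pos han
    (fun τ ↦ by
      simpa only [Function.Periodic.qParam, Complex.ofReal_one, div_one] using
        hasSum_qExpansion_E2 (z := τ))
  have h0 : cuspFunction 1 E2 0 = 1 := by
    have := hps.coeff_zero (fun _ ↦ 0)
    simpa [FormalMultilinearSeries.ofScalars] using this.symm
  have hcomp : (cuspFunction 1 E2 ∘ fun τ : ℍ ↦ 𝕢 1 τ : ℍ → ℂ) = E2 := by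
    funext τ
    simpa using eq_cuspFunction τ one_ne_zero periodic_E2
  have := han.continuousAt.tendsto.comp (qParam_tendsto_atImInfty one_pos)
  rwa [hcomp, h0] at this

theorem tendsto_serreDerivative {k : ℤ} (f : ModularForm 𝒮ℒ k) :
    Tendsto (serreDerivative k f) atImInfty
      (𝓝 (-((k : ℂ) * 12⁻¹ * (qExpansion 1 f).coeff 0))) := by
  have h1 := tendsto_D_atImInfty f.holo' (tendsto_coeff_zero f)
  have h2 := (tendsto_E2.const_mul ((k : ℂ) * 12⁻¹)).mul (tendsto_coeff_zero f)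
  have h3 := h1.sub h2
  simp only [mul_one, zero_sub] at h3
  refine h3.congr (fun z ↦ ?_)
  simp [serreDerivative]

theorem serreDerivative_slash_SL {k : ℤ} (f : ModularForm 𝒮ℒ k) (γ : SL(2, ℤ)) :
    serreDerivative k f ∣[k + 2] γ = serreDerivative k f := by
  have hγ : (γ : GL (Fin 2) ℝ) ∈ 𝒮ℒ := ⟨γ, rfl⟩
  apply serreDerivative_slash_invariant f.holo'
  rw [SL_slash]
  exact slash_action_eqn f _ hγ

/-- The Serre derivative of a level one modular form of weight `k`, as a modular form of weight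
`k + 2`. -/
noncomputable def serreMF {k : ℤ} (f : ModularForm 𝒮ℒ k) : ModularForm 𝒮ℒ (k + 2) where
  toFun := serreDerivative k f
  slash_action_eq' := fun _ ⟨γ, hγ⟩ ↦ hγ ▸ serreDerivative_slash_SL f γ
  holo' := serreDerivative_mdifferentiable _ f.holo'
  bdd_at_cusps' {c} hc := by
    rw [Subgroup.IsArithmetic.isCusp_iff_isCusp_SL2Z] at hc
    rw [isBoundedAt_iff_forall_SL2Z hc]
    intro γ _
    rw [serreDerivative_slash_SL f γ, IsBoundedAtImInfty, BoundedAtFilter]
    exact (tendsto_serreDerivative f).isBigO_one ℝ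

@[simp]
theorem serreMF_apply {k : ℤ} (f : ModularForm 𝒮ℒ k) (z : ℍ) :
    serreMF f z = serreDerivative k f z := rfl

theorem coe_serreMF {k : ℤ} (f : ModularForm 𝒮ℒ k) :
    (serreMF f : ℍ → ℂ) = serreDerivative k f := rfl

/-- In a one-dimensional space of level one modular forms, every form is determined by its
constant coefficient. -/
theorem eq_smul_of_rank_one {k : ℤ} (hk : Module.rank ℂ (ModularForm 𝒮ℒ k) = 1)
    (g f : ModularForm 𝒮ℒ k) (hg : (qExpansion 1 g).coeff 0 = 1) :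
    f = (qExpansion 1 f).coeff 0 • g := by
  have hg0 : g ≠ 0 := by
    rintro rfl
    have h1 := tendsto_coeff_zero (0 : ModularForm 𝒮ℒ k)
    rw [hg] at h1
    have h2 : Tendsto (⇑(0 : ModularForm 𝒮ℒ k)) atImInfty (𝓝 0) :=
      (tendsto_const_nhds : Tendsto (fun _ : ℍ ↦ (0 : ℂ)) atImInfty (𝓝 0)).congr
        (fun z ↦ by simp)
    exact one_ne_zero (tendsto_nhds_unique h1 h2)
  obtain ⟨c, hc⟩ := (finrank_eq_one_iff_of_nonzero' g hg0).mp
    (Module.rank_eq_one_iff_finrank_eq_one.mp hk) f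
  have h1 := tendsto_coeff_zero f
  have h2 : Tendsto (⇑f) atImInfty (𝓝 (c * 1)) := by
    have := (tendsto_coeff_zero g).const_mul c
    rw [hg] at this
    refine this.congr (fun z ↦ ?_)
    rw [← hc]
    rfl
  have h3 := tendsto_nhds_unique h1 h2
  rw [h3, mul_one, hc]

theorem E₄_coeff_zero : (qExpansion 1 E₄).coeff 0 = 1 := E_qExpansion_coeff_zero _ ⟨2, rfl⟩

theorem E₆_coeff_zero : (qExpansion 1 E₆).coeff 0 = 1 := E_qExpansion_coeff_zero _ ⟨3, rfl⟩

theorem tendsto_E₄ : Tendsto E₄ atImInfty (𝓝 1) := by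
  simpa [E₄_coeff_zero] using tendsto_coeff_zero E₄

theorem tendsto_E₆ : Tendsto E₆ atImInfty (𝓝 1) := by
  simpa [E₆_coeff_zero] using tendsto_coeff_zero E₆

/-- **Ramanujan's identity** `∂₄ E₄ = -E₆/3`. -/
theorem serreDerivative_E₄ (z : ℍ) : serreDerivative 4 E₄ z = -(1 / 3) * E₆ z := by
  have h := eq_smul_of_rank_one levelOne_weight_six_rank_one E₆
    (ModularForm.mcast (by norm_num) (serreMF E₄)) E₆_coeff_zero
  have h1 := tendsto_coeff_zero (ModularForm.mcast (by norm_num : (4:ℤ) + 2 = 6) (serreMF E₄))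
  have h2 := tendsto_serreDerivative E₄
  rw [E₄_coeff_zero] at h2
  have h3 : (qExpansion 1 (ModularForm.mcast (by norm_num : (4:ℤ) + 2 = 6) (serreMF E₄))).coeff 0 =
      -(((4:ℤ) : ℂ) * 12⁻¹ * 1) := tendsto_nhds_unique h1 h2
  rw [h3] at h
  have h4 := congrArg (fun f : ModularForm 𝒮ℒ 6 ↦ f z) h
  simp only [_root_.smul_apply, smul_eq_mul] at h4
  have h5 : (ModularForm.mcast (by norm_num : (4:ℤ) + 2 = 6) (serreMF E₄)) z =
      serreDerivative 4 E₄ z := rfl
  rw [h5] at h4
  rw [h4]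
  push_cast
  ring

theorem coeff_zero_of_tendsto {k : ℤ} (f : ModularForm 𝒮ℒ k) {a : ℂ}
    (h : Tendsto f atImInfty (𝓝 a)) : (qExpansion 1 f).coeff 0 = a :=
  tendsto_nhds_unique (tendsto_coeff_zero f) h

theorem rank_weight_eight : Module.rank ℂ (ModularForm 𝒮ℒ 8) = 1 := by
  have := dimension_level_one 8 ⟨4, rfl⟩
  simpa [Nat.ModEq] using this

theorem rank_weight_fourteen : Module.rank ℂ (ModularForm 𝒮ℒ 14) = 1 := by
  have := dimension_level_one 14 ⟨7, rfl⟩
  simpa [Nat.ModEq] using this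

/-- `E₄²` as a modular form of weight 8. -/
noncomputable def E₄sq : ModularForm 𝒮ℒ 8 := ModularForm.mcast (by norm_num) (E₄.mul E₄)

theorem E₄sq_apply (z : ℍ) : E₄sq z = E₄ z ^ 2 := by
  show E₄ z * E₄ z = _
  ring

theorem E₄sq_coeff_zero : (qExpansion 1 E₄sq).coeff 0 = 1 := by
  apply coeff_zero_of_tendsto
  have := tendsto_E₄.pow 2
  rw [one_pow] at this
  exact this.congr (fun z ↦ (E₄sq_apply z).symm)

/-- **Ramanujan's identity** `∂₆ E₆ = -E₄²/2`. -/
theorem serreDerivative_E₆ (z : ℍ) : serreDerivative 6 E₆ z = -(1 / 2) * E₄ z ^ 2 := by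
  have h := eq_smul_of_rank_one rank_weight_eight E₄sq
    (ModularForm.mcast (by norm_num) (serreMF E₆)) E₄sq_coeff_zero
  have h1 := tendsto_coeff_zero (ModularForm.mcast (by norm_num : (6:ℤ) + 2 = 8) (serreMF E₆))
  have h2 := tendsto_serreDerivative E₆
  rw [E₆_coeff_zero] at h2
  have h3 : (qExpansion 1 (ModularForm.mcast (by norm_num : (6:ℤ) + 2 = 8) (serreMF E₆))).coeff 0 =
      -(((6:ℤ) : ℂ) * 12⁻¹ * 1) := tendsto_nhds_unique h1 h2
  rw [h3] at h
  have h4 := congrArg (fun f : ModularForm 𝒮ℒ 8 ↦ f z) h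
  simp only [_root_.smul_apply, smul_eq_mul] at h4
  have h5 : (ModularForm.mcast (by norm_num : (6:ℤ) + 2 = 8) (serreMF E₆)) z =
      serreDerivative 6 E₆ z := rfl
  rw [h5, E₄sq_apply] at h4
  rw [h4]
  push_cast
  ring

/-- The discriminant as a level one modular form of weight 12. -/
noncomputable def ΔMF : ModularForm 𝒮ℒ 12 := CuspForm.toModularFormₗ CuspForm.discriminant

theorem ΔMF_apply (z : ℍ) : ΔMF z = ModularForm.discriminant z := rfl

theorem tendsto_Δ : Tendsto ModularForm.discriminant atImInfty (𝓝 0) :=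
  discriminant_isZeroAtImInfty

theorem ΔMF_coeff_zero : (qExpansion 1 ΔMF).coeff 0 = 0 :=
  coeff_zero_of_tendsto ΔMF tendsto_Δ

/-- `E₄² E₆` as a modular form of weight 14. -/
noncomputable def E₄sqE₆ : ModularForm 𝒮ℒ 14 := ModularForm.mcast (by norm_num) (E₄sq.mul E₆)

theorem E₄sqE₆_apply (z : ℍ) : E₄sqE₆ z = E₄ z ^ 2 * E₆ z := by
  show E₄sq z * E₆ z = _
  rw [E₄sq_apply]

theorem E₄sqE₆_coeff_zero : (qExpansion 1 E₄sqE₆).coeff 0 = 1 := by
  apply coeff_zero_of_tendsto
  have := (tendsto_E₄.pow 2).mul tendsto_E₆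
  rw [one_pow, one_mul] at this
  exact this.congr (fun z ↦ (E₄sqE₆_apply z).symm)

/-- `∂₁₂ Δ = 0`, i.e. `D Δ = E₂ Δ`. -/
theorem serreDerivative_Δ (z : ℍ) : serreDerivative 12 ModularForm.discriminant z = 0 := by
  have h := eq_smul_of_rank_one rank_weight_fourteen E₄sqE₆
    (ModularForm.mcast (by norm_num) (serreMF ΔMF)) E₄sqE₆_coeff_zero
  have h1 := tendsto_coeff_zero (ModularForm.mcast (by norm_num : (12:ℤ) + 2 = 14) (serreMF ΔMF))
  have h2 := tendsto_serreDerivative ΔMF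
  rw [ΔMF_coeff_zero] at h2
  have h3 : (qExpansion 1 (ModularForm.mcast (by norm_num : (12:ℤ) + 2 = 14)
      (serreMF ΔMF))).coeff 0 = -(((12:ℤ) : ℂ) * 12⁻¹ * 0) := tendsto_nhds_unique h1 h2
  rw [h3] at h
  have h4 := congrArg (fun f : ModularForm 𝒮ℒ 14 ↦ f z) h
  simp only [_root_.smul_apply, smul_eq_mul] at h4
  have h5 : (ModularForm.mcast (by norm_num : (12:ℤ) + 2 = 14) (serreMF ΔMF)) z =
      serreDerivative 12 ModularForm.discriminant z := rfl
  rw [h5] at h4
  rw [h4]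
  simp

/-- `D Δ = E₂ Δ`. -/
theorem D_Δ (z : ℍ) : D ModularForm.discriminant z = E2 z * ModularForm.discriminant z := by
  have h := serreDerivative_Δ z
  simp only [serreDerivative_apply] at h
  have : (12 : ℂ) * 12⁻¹ = 1 := by norm_num
  rw [this, one_mul] at h
  exact sub_eq_zero.1 h

/-- `D E₄ = (E₂ E₄ - E₆)/3`. -/
theorem D_E₄ (z : ℍ) : D E₄ z = (E2 z * E₄ z - E₆ z) / 3 := by
  have h := serreDerivative_E₄ z
  simp only [serreDerivative_apply] at h
  linear_combination h

/-- `D E₆ = (E₂ E₆ - E₄²)/2`. -/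
theorem D_E₆ (z : ℍ) : D E₆ z = (E2 z * E₆ z - E₄ z ^ 2) / 2 := by
  have h := serreDerivative_E₆ z
  simp only [serreDerivative_apply] at h
  linear_combination h

end Fermat.Agent.LevelOne.Ramanujan
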